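import Mathlib.AlgebraicGeometry.EllipticCurve.Weierstrass
import Mathlib.AlgebraicGeometry.EllipticCurve.VariableChange
import Mathlib.NumberTheory.Padics.PadicVal.Basic
import Fermat.Prelude.Def_FLTPrelim_FreyPackage
import Fermat.Prelude.Def_FLTPrelim_Modularity

/-!
# The integral model of the Frey curve

`freyCurveInt` maps onto `freyCurve`, is semistable, and its invariants are
`2^8 * Δ = (abc)^(2p)` and `c₄ = A² + AB + B²` where `A = a^p`, `B = b^p`.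
-/

set_option autoImplicit false

namespace FLTAgent.Frey

variable (P : FreyPackage)

/-- `(A, B) = (a^p, b^p)`: `A ≡ 3 (mod 4)`. -/
lemma pow_a_mod_four : (P.a ^ P.p : ZMod 4) = 3 := by
  obtain ⟨k, hk⟩ := P.hp_odd
  rw [P.ha4, hk, pow_add, pow_mul]
  simp [show (3 : ZMod 4) ^ 2 = 1 by decide]

lemma two_dvd_b : (2 : ℤ) ∣ P.b :=
  (ZMod.intCast_zmod_eq_zero_iff_dvd P.b 2).1 P.hb2

lemma two_not_dvd_a : ¬ (2 : ℤ) ∣ P.a := by
  intro h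
  have h4 : (P.a : ZMod 4) = 3 := P.ha4
  obtain ⟨k, hk⟩ := h
  rw [hk] at h4
  push_cast at h4
  revert h4
  generalize (k : ZMod 4) = z
  revert z
  decide

lemma thirty_two_dvd_pow_b : (32 : ℤ) ∣ P.b ^ P.p :=
  (pow_dvd_pow_of_dvd (two_dvd_b P) 5).trans (pow_dvd_pow _ P.hp5)

lemma two_not_dvd_c : ¬ (2 : ℤ) ∣ P.c := by
  intro h
  have h1 : (2 : ℤ) ∣ gcd P.b P.c := dvd_gcd (two_dvd_b P) h
  rw [P.hgcdbc] at h1
  omega

lemma four_dvd_a₂ : (4 : ℤ) ∣ P.b ^ P.p - 1 - P.a ^ P.p := by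
  have hb : ((P.b ^ P.p : ℤ) : ZMod 4) = 0 :=
    (ZMod.intCast_zmod_eq_zero_iff_dvd _ 4).2 (dvd_trans (by norm_num) (thirty_two_dvd_pow_b P))
  apply (ZMod.intCast_zmod_eq_zero_iff_dvd _ 4).1
  push_cast at hb ⊢
  rw [pow_a_mod_four P, hb]
  decide

lemma sixteen_dvd_a₄ : (16 : ℤ) ∣ -(P.a ^ P.p) * (P.b ^ P.p) :=
  dvd_mul_of_dvd_right (dvd_trans (by norm_num) (thirty_two_dvd_pow_b P)) _

lemma four_mul_a₂ : 4 * P.freyCurveInt.a₂ = P.b ^ P.p - 1 - P.a ^ P.p :=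
  Int.mul_ediv_cancel' (four_dvd_a₂ P)

lemma sixteen_mul_a₄ : 16 * P.freyCurveInt.a₄ = -(P.a ^ P.p) * (P.b ^ P.p) :=
  Int.mul_ediv_cancel' (sixteen_dvd_a₄ P)

/-- The integral Frey model maps onto the Frey curve. -/
theorem freyCurveInt_map : P.freyCurveInt.map (Int.castRingHom ℚ) = P.freyCurve := by
  ext <;> simp only [WeierstrassCurve.map_a₁, WeierstrassCurve.map_a₂, WeierstrassCurve.map_a₃,
    WeierstrassCurve.map_a₄, WeierstrassCurve.map_a₆, eq_intCast]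
  · simp [FreyPackage.freyCurveInt, FreyPackage.freyCurve]
  · have h : ((4 * P.freyCurveInt.a₂ : ℤ) : ℚ) = ((P.b ^ P.p - 1 - P.a ^ P.p : ℤ) : ℚ) :=
      congrArg _ (four_mul_a₂ P)
    push_cast at h
    simp only [FreyPackage.freyCurve]
    linarith
  · simp [FreyPackage.freyCurveInt, FreyPackage.freyCurve]
  · have h : ((16 * P.freyCurveInt.a₄ : ℤ) : ℚ) = ((-(P.a ^ P.p) * (P.b ^ P.p) : ℤ) : ℚ) :=
      congrArg _ (sixteen_mul_a₄ P)
    push_cast at h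
    simp only [FreyPackage.freyCurve]
    linarith
  · simp [FreyPackage.freyCurveInt, FreyPackage.freyCurve]

theorem isIntegralModelOf : P.freyCurveInt.IsIntegralModelOf P.freyCurve :=
  ⟨1, by rw [one_smul, freyCurveInt_map]⟩

lemma freyCurveInt_a₁ : P.freyCurveInt.a₁ = 1 := rfl

lemma freyCurveInt_a₃ : P.freyCurveInt.a₃ = 0 := rfl

lemma freyCurveInt_a₆ : P.freyCurveInt.a₆ = 0 := rfl

lemma freyCurveInt_b₂ : P.freyCurveInt.b₂ = P.b ^ P.p - P.a ^ P.p := by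
  have h := four_mul_a₂ P
  simp only [WeierstrassCurve.b₂, freyCurveInt_a₁]
  linarith

/-- `Δ = a₄² (b₂² - 64 a₄)`. -/
lemma freyCurveInt_Δ_eq : P.freyCurveInt.Δ
    = P.freyCurveInt.a₄ ^ 2 * (P.freyCurveInt.b₂ ^ 2 - 64 * P.freyCurveInt.a₄) := by
  simp only [WeierstrassCurve.Δ, WeierstrassCurve.b₈, WeierstrassCurve.b₆, WeierstrassCurve.b₄,
    freyCurveInt_a₁, freyCurveInt_a₃, freyCurveInt_a₆]
  ring

/-- `2^8 Δ = (abc)^(2p)`. -/
theorem freyCurveInt_Δ : 256 * P.freyCurveInt.Δ = (P.a * P.b * P.c) ^ (2 * P.p) := by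
  have h2 := four_mul_a₂ P
  have h4 := sixteen_mul_a₄ P
  have hb := freyCurveInt_b₂ P
  rw [freyCurveInt_Δ_eq, hb, show (P.a * P.b * P.c) ^ (2 * P.p)
    = (P.a ^ P.p) ^ 2 * (P.b ^ P.p) ^ 2 * (P.c ^ P.p) ^ 2 by rw [mul_comm 2, pow_mul]; ring,
    ← P.hFLT]
  linear_combination
    ((P.b ^ P.p - P.a ^ P.p) ^ 2 - 64 * P.freyCurveInt.a₄)
        * (16 * P.freyCurveInt.a₄ + -(P.a ^ P.p) * P.b ^ P.p) * h4
      + (-4) * (P.a ^ P.p) ^ 2 * (P.b ^ P.p) ^ 2 * h4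

theorem freyCurveInt_Δ_ne_zero : P.freyCurveInt.Δ ≠ 0 := by
  intro h
  have h1 := freyCurveInt_Δ P
  rw [h, mul_zero] at h1
  exact pow_ne_zero _ P.habc0 h1.symm

/-- `c₄ = A² + AB + B²`. -/
theorem freyCurveInt_c₄ :
    P.freyCurveInt.c₄ = (P.a ^ P.p) ^ 2 + P.a ^ P.p * P.b ^ P.p + (P.b ^ P.p) ^ 2 := by
  have h4 := sixteen_mul_a₄ P
  have hb := freyCurveInt_b₂ P
  simp only [WeierstrassCurve.c₄, hb, WeierstrassCurve.b₄, freyCurveInt_a₁, freyCurveInt_a₃]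
  linear_combination (-3) * h4

/-- A prime dividing the discriminant divides `abc`. -/
theorem dvd_abc_of_dvd_Δ {q : ℕ} (hq : q.Prime) (h : (q : ℤ) ∣ P.freyCurveInt.Δ) :
    (q : ℤ) ∣ P.a * P.b * P.c :=
  (Nat.prime_iff_prime_int.1 hq).dvd_of_dvd_pow
    ((freyCurveInt_Δ P) ▸ dvd_mul_of_dvd_right h 256)

lemma not_dvd_and_dvd {x y : ℤ} (hxy : gcd x y = 1) {q : ℕ} (hq : q.Prime)
    (hx : (q : ℤ) ∣ x) (hy : (q : ℤ) ∣ y) : False := by
  have h := dvd_gcd hx hy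
  rw [hxy] at h
  exact hq.one_lt.ne' (Nat.dvd_one.1 (by exact_mod_cast h))

/-- `abc` and `c₄` have no common prime factor. -/
theorem not_dvd_c₄_of_dvd_abc {q : ℕ} (hq : q.Prime) (h : (q : ℤ) ∣ P.a * P.b * P.c) :
    ¬ (q : ℤ) ∣ P.freyCurveInt.c₄ := by
  have hqi := Nat.prime_iff_prime_int.1 hq
  have hp := P.hp0
  rw [freyCurveInt_c₄]
  intro h4
  rcases hqi.dvd_or_dvd h with h' | hc
  · rcases hqi.dvd_or_dvd h' with ha | hb
    · have hA : (q : ℤ) ∣ P.a ^ P.p := dvd_pow ha hp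
      have hB : (q : ℤ) ∣ (P.b ^ P.p) ^ 2 := by
        rw [show (P.b ^ P.p) ^ 2 = ((P.a ^ P.p) ^ 2 + P.a ^ P.p * P.b ^ P.p + (P.b ^ P.p) ^ 2)
          - P.a ^ P.p * (P.a ^ P.p + P.b ^ P.p) by ring]
        exact dvd_sub h4 (dvd_mul_of_dvd_left hA _)
      exact not_dvd_and_dvd P.hgcdab hq ha (hqi.dvd_of_dvd_pow (hqi.dvd_of_dvd_pow hB))
    · have hB : (q : ℤ) ∣ P.b ^ P.p := dvd_pow hb hp
      have hA : (q : ℤ) ∣ (P.a ^ P.p) ^ 2 := by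
        rw [show (P.a ^ P.p) ^ 2 = ((P.a ^ P.p) ^ 2 + P.a ^ P.p * P.b ^ P.p + (P.b ^ P.p) ^ 2)
          - P.b ^ P.p * (P.a ^ P.p + P.b ^ P.p) by ring]
        exact dvd_sub h4 (dvd_mul_of_dvd_left hB _)
      exact not_dvd_and_dvd P.hgcdab hq (hqi.dvd_of_dvd_pow (hqi.dvd_of_dvd_pow hA)) hb
  · have hC : (q : ℤ) ∣ P.c ^ P.p := dvd_pow hc hp
    have hAB : (q : ℤ) ∣ P.a ^ P.p * P.b ^ P.p := by
      rw [show P.a ^ P.p * P.b ^ P.p = P.c ^ P.p * (P.a ^ P.p + P.b ^ P.p)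
        - ((P.a ^ P.p) ^ 2 + P.a ^ P.p * P.b ^ P.p + (P.b ^ P.p) ^ 2) by rw [← P.hFLT]; ring]
      exact dvd_sub (dvd_mul_of_dvd_left hC _) h4
    rcases hqi.dvd_or_dvd hAB with ha | hb
    · exact not_dvd_and_dvd P.hgcdac hq (hqi.dvd_of_dvd_pow ha) hc
    · exact not_dvd_and_dvd P.hgcdbc hq (hqi.dvd_of_dvd_pow hb) hc

/-- The Frey model is semistable. -/
theorem freyCurveInt_isSemistableModel : P.freyCurveInt.IsSemistableModel :=
  fun _ hq h => not_dvd_c₄_of_dvd_abc P hq (dvd_abc_of_dvd_Δ P hq h)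

/-- The discriminant is even. -/
theorem two_dvd_freyCurveInt_Δ : (2 : ℤ) ∣ P.freyCurveInt.Δ := by
  obtain ⟨k, hk⟩ := thirty_two_dvd_pow_b P
  have h4 := sixteen_mul_a₄ P
  rw [hk] at h4
  have ha : P.freyCurveInt.a₄ = 2 * (-(P.a ^ P.p) * k) := by linarith
  rw [freyCurveInt_Δ_eq, ha]
  exact dvd_mul_of_dvd_left (dvd_pow (dvd_mul_right _ _) two_ne_zero) _

/-- `v_q(Δ) + v_q(2^8) = 2p v_q(abc)`. -/
theorem padicValInt_Δ (q : ℕ) [Fact q.Prime] :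
    padicValInt q 256 + padicValInt q P.freyCurveInt.Δ
      = 2 * P.p * padicValInt q (P.a * P.b * P.c) := by
  rw [← padicValInt.mul (by norm_num) (freyCurveInt_Δ_ne_zero P), freyCurveInt_Δ]
  generalize P.a * P.b * P.c = x
  simp [padicValInt, Int.natAbs_pow, padicValNat.pow]

/-- `v_q(Δ) = 2p v_q(abc)` for odd primes `q`. -/
theorem padicValInt_Δ_of_ne_two {q : ℕ} (hq : q.Prime) (hq2 : q ≠ 2) :
    padicValInt q P.freyCurveInt.Δ = 2 * P.p * padicValInt q (P.a * P.b * P.c) := by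
  have := Fact.mk hq
  have h := padicValInt_Δ P q
  have h0 : padicValInt q 256 = 0 := by
    apply padicValInt.eq_zero_of_not_dvd
    intro hd
    have hd' : q ∣ 2 ^ 8 := by exact_mod_cast hd
    exact hq2 ((Nat.prime_dvd_prime_iff_eq hq Nat.prime_two).1 (hq.dvd_of_dvd_pow hd'))
  omega

/-- At `q ≠ 2`, `p ∣ v_q(Δ)`. -/
theorem p_dvd_padicValInt_Δ {q : ℕ} (hq : q.Prime) (hq2 : q ≠ 2) :
    P.p ∣ padicValInt q P.freyCurveInt.Δ := by
  rw [padicValInt_Δ_of_ne_two P hq hq2]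
  exact dvd_mul_of_dvd_left (dvd_mul_left _ _) _

/-- `v_2(Δ) + 8 = 2p v_2(abc)`. -/
theorem padicValInt_two_Δ :
    padicValInt 2 P.freyCurveInt.Δ + 8 = 2 * P.p * padicValInt 2 (P.a * P.b * P.c) := by
  have h := padicValInt_Δ P 2
  have h8 : padicValInt 2 256 = 8 := by
    simp only [padicValInt, show Int.natAbs 256 = 2 ^ 8 by norm_num, padicValNat.prime_pow]
  omega

/-- `p ∤ v_2(Δ)`. -/
theorem p_not_dvd_padicValInt_two_Δ : ¬ P.p ∣ padicValInt 2 P.freyCurveInt.Δ := by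
  intro h
  have h2 : P.p ∣ padicValInt 2 P.freyCurveInt.Δ + 8 := by
    rw [padicValInt_two_Δ]
    exact dvd_mul_of_dvd_left (dvd_mul_left _ _) _
  have h8 : P.p ∣ 2 ^ 3 := (Nat.dvd_add_right h).1 h2
  have := (Nat.prime_dvd_prime_iff_eq P.pp Nat.prime_two).1 (P.pp.dvd_of_dvd_pow h8)
  have := P.hp5
  omega

end FLTAgent.Frey
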